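import Fermat.Agent.TW.G.GSel
import Fermat.Agent.TW.G.Kill
import Fermat.Agent.TW.Plan
import Fermat.Agent.TW.S.Defs
import Fermat.Agent.TW.ChebPrime

/-!
# TW-G / G-wire (helper26): from the abstract G-sel to Taylor–Wiles primes killing dual Selmer classes

`B := (ad⁰ ρ̄).dualTwist χ̄ = ad⁰(1)`.  FINAL DELIVERABLE of TW-G: `StmtGKill`.
Piece table and proofs: NOTES/TW-G.md §6.
-/

set_option autoImplicit false
set_option linter.unusedSectionVars false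

noncomputable section

namespace Fermat.Agent.TW.G.Wire

open CategoryTheory groupCohomology Polynomial IsLocalRing
open Fermat.Agent.PT Fermat.Agent.PT.B Fermat.Agent.TW.S ExtCitation Fermat.Agent.TW.G.Sel

variable {k : Type} [Field k]

/-- the matrix form of `ρ̄` in a basis, with values in `GL₂(k)` -/
def rhoGL (ρbar : ResidualGaloisRep k) (b : Module.Basis (Fin 2) k ρbar.V) :
    GQ →* GL (Fin 2) k :=
  ((LinearMap.toMatrixAlgEquiv b : Module.End k ρbar.V ≃ₐ[k] Matrix (Fin 2) (Fin 2) k).toAlgHom.toRingHom.toMonoidHom.comp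
    ρbar.ρ).toHomUnits

lemma rhoGL_val (ρbar : ResidualGaloisRep k) (b : Module.Basis (Fin 2) k ρbar.V) (σ : GQ) :
    (rhoGL ρbar b σ).1 = LinearMap.toMatrix b b (ρbar.ρ σ) := rfl

/-- the stabiliser of `μ_{p^(n+1)}` -/
def Nn (p n : ℕ) : Subgroup GQ where
  carrier := {σ | ∀ μ : AlgebraicClosure ℚ, μ ^ p ^ (n + 1) = 1 → σ μ = μ}
  one_mem' := fun _ _ => rfl
  mul_mem' := by
    intro a b ha hb μ hμ
    show a (b μ) = μ
    rw [hb μ hμ, ha μ hμ]
  inv_mem' := by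
    intro a ha μ hμ
    have h := ha μ hμ
    have : a⁻¹ (a μ) = μ := by
      show (a⁻¹ * a) μ = μ
      rw [inv_mul_cancel]; rfl
    rw [h] at this
    exact this

variable (p : ℕ) [Fact p.Prime] [CharP k p] (ρbar : ResidualGaloisRep k)

/-- `ad⁰(1)` -/
abbrev adTw : Rep.{0} (ZMod p) GQ := (ad0Rep p ρbar).dualTwist (cycloChar p)

/-- a level cocycle of `ad⁰(1)` -/
def IsLevCoc (c : GQ → (adTw p ρbar).V) : Prop :=
  c ∈ cocycles₁ (adTw p ρbar) ∧
    ∃ F : QbarField, FiniteDimensional ℚ F ∧ ∀ g s : GQ, s ∈ F.fixingSubgroup → c (g * s) = c g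

/-- `c` is a coboundary at every Frobenius element over `q` -/
def TrivAtFrob (c : GQ → (adTw p ρbar).V) (q : ℕ) : Prop :=
  ∀ A : ValuationSubring (AlgebraicClosure ℚ), A.LiesOverPrime q →
    ∀ τ : GQ, A.IsFrobeniusAt τ q → ∃ m : (adTw p ρbar).V, c τ = (adTw p ρbar).ρ τ m - m

/-- the classes which are trivial at the Frobenius elements over `q` -/
def trivFrobH1 (q : ℕ) : Set (H1 (adTw p ρbar)) :=
  {y | ∃ c : cocycles₁ (adTw p ρbar), (H1π (adTw p ρbar)).hom c = y ∧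
    TrivAtFrob p ρbar (c : GQ → (adTw p ρbar).V) q}

/-- **FINAL DELIVERABLE of TW-G.**  For a finite-dimensional space `D₀` of level classes in
`H¹(G_ℚ, ad⁰(1))` (the dual Selmer group of the minimal problem), every `r ≥ dim D₀` and every
`n` there is a Taylor–Wiles family `q₁, …, q_r` such that the only class of `D₀` which is trivial
at the Frobenius elements of all `q_i` is `0`. -/
def StmtGKill : Prop :=
  ∀ (𝒪 : Type) [CommRing 𝒪] [IsDomain 𝒪] [IsDiscreteValuationRing 𝒪]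
    [IsAdicComplete (maximalIdeal 𝒪) 𝒪] [Finite (ResidueField 𝒪)]
    (p : ℕ) [Fact p.Prime] [CharP (ResidueField 𝒪) p]
    (ρbar : ResidualGaloisRep (ResidueField 𝒪)) (S Smin : Finset ℕ),
    TWHyp 𝒪 p ρbar S Smin →
    ∀ D₀ : Submodule (ZMod p) (H1 (adTw p ρbar)), Module.Finite (ZMod p) D₀ →
      (∀ y ∈ D₀, ∃ c : cocycles₁ (adTw p ρbar), (H1π (adTw p ρbar)).hom c = y ∧
        IsLevCoc p ρbar (c : GQ → (adTw p ρbar).V)) →
      ∀ r : ℕ, Module.finrank (ZMod p) D₀ ≤ r → ∀ n : ℕ,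
        ∃ qv : Fin r → ℕ, IsTWFamily p ρbar S n r qv ∧
          ∀ y ∈ D₀, (∀ i, y ∈ trivFrobH1 p ρbar (qv i)) → y = 0

/-- (W4) a class whose restriction to `G_{ℚ_q}` vanishes is trivial at the Frobenius elements
over `q`. -/
def StmtWLoc : Prop :=
  ∀ (k : Type) [Field k] (p : ℕ) [Fact p.Prime] [CharP k p] (ρbar : ResidualGaloisRep k)
    (q : ℕ) [Fact q.Prime] (c : cocycles₁ (adTw p ρbar)),
    (∃ m : (adTw p ρbar).V, ∀ x : GQq q,
      (c : GQ → (adTw p ρbar).V) (localGaloisToGlobal q x) =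
        (adTw p ρbar).ρ (localGaloisToGlobal q x) m - m) →
    TrivAtFrob p ρbar (c : GQ → (adTw p ρbar).V) q

/-- (W1) the hypotheses of S56 give the abstract hypotheses `Hyp`, in any basis and for every
`n`. -/
def StmtWHyp : Prop :=
  ∀ (𝒪 : Type) [CommRing 𝒪] [IsDomain 𝒪] [IsDiscreteValuationRing 𝒪]
    [IsAdicComplete (maximalIdeal 𝒪) 𝒪] [Finite (ResidueField 𝒪)]
    (p : ℕ) [Fact p.Prime] [CharP (ResidueField 𝒪) p]
    (ρbar : ResidualGaloisRep (ResidueField 𝒪)) (S Smin : Finset ℕ),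
    TWHyp 𝒪 p ρbar S Smin →
    ∀ (b : Module.Basis (Fin 2) (ResidueField 𝒪) ρbar.V) (n : ℕ),
      Hyp p (rhoGL ρbar b) (Nn p n)

/-- (W1a) `det ρ̄ = χ̄`. -/
def StmtWDet : Prop :=
  ∀ (k : Type) [Field k] (p : ℕ) [Fact p.Prime] [CharP k p] (ρbar : ResidualGaloisRep k),
    (GaloisRepAdic.ofResidualGaloisRep ρbar).DetIsCyclotomic p →
    ∀ (b : Module.Basis (Fin 2) k ρbar.V) (σ : GQ),
      (rhoGL ρbar b σ).1.det = (((cycloChar p σ : (ZMod p)ˣ) : ZMod p).val : k)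

/-- (W1b) the mod `p` cyclotomic character is surjective. -/
def StmtWChiSurj : Prop :=
  ∀ (p : ℕ) [Fact p.Prime], Function.Surjective (cycloChar p)

/-- (W1c) absolute irreducibility in matrix form, on `G_ℚ` and on subgroups of index 2. -/
def StmtWIrr : Prop :=
  ∀ (𝒪 : Type) [CommRing 𝒪] [IsDomain 𝒪] [IsDiscreteValuationRing 𝒪]
    [IsAdicComplete (maximalIdeal 𝒪) 𝒪] [Finite (ResidueField 𝒪)]
    (p : ℕ) [Fact p.Prime] [CharP (ResidueField 𝒪) p]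
    (ρbar : ResidualGaloisRep (ResidueField 𝒪)) (S Smin : Finset ℕ),
    TWHyp 𝒪 p ρbar S Smin →
    ∀ (b : Module.Basis (Fin 2) (ResidueField 𝒪) ρbar.V) (H : Subgroup GQ),
      (H = ⊤ ∨ H.index = 2) → NoEigen (rhoGL ρbar b) H

/-- (W1d) `N_n` is normal with cyclic quotient (`p` odd), and `χ̄ = 1` on `N_n`. -/
def StmtWCyc : Prop :=
  ∀ (p : ℕ) [Fact p.Prime], p ≠ 2 → ∀ n : ℕ,
    (Nn p n).Normal ∧ (∃ γ : GQ, ∀ σ : GQ, ∃ a : ℤ, γ ^ a * σ ∈ Nn p n) ∧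
      ∀ σ ∈ Nn p n, cycloChar p σ = 1

/-- (W2) the dictionary `ad⁰(1) ≅ (trace-zero matrices, twisted adjoint action)`. -/
def StmtWPhi : Prop :=
  ∀ (k : Type) [Field k] [Finite k] (p : ℕ) [Fact p.Prime] [CharP k p], p ≠ 2 →
    ∀ (ρbar : ResidualGaloisRep k),
    (GaloisRepAdic.ofResidualGaloisRep ρbar).DetIsCyclotomic p →
    ∀ (b : Module.Basis (Fin 2) k ρbar.V),
      ∃ Φ : (adTw p ρbar).V →+ M2 k, Function.Injective Φ ∧ (∀ x, (Φ x).trace = 0) ∧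
        (∀ m : M2 k, m.trace = 0 → ∃ x, Φ x = m) ∧
        ∀ (σ : GQ) (x : (adTw p ρbar).V),
          Φ ((adTw p ρbar).ρ σ x) = act (rhoGL ρbar b σ).1 (Φ x)

/-- (W3) transfer between two elements generating the same cyclic group modulo a subgroup on
which `ρ` is trivial and `ψ` is constant. -/
def StmtWTransfer : Prop :=
  ∀ (k : Type) [Field k] (Γ : Type) [Group Γ] (ρ : Γ →* GL (Fin 2) k) (ψ : Γ → M2 k),
    IsCoc ρ ψ → ∀ (U : Subgroup Γ), (∀ s ∈ U, ρ s = 1) → (∀ g : Γ, ∀ s ∈ U, ψ (g * s) = ψ g) →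
    ∀ (σ τ : Γ) (j : ℕ), (σ ^ j)⁻¹ * τ ∈ U → IsCobAt ρ ψ σ → IsCobAt ρ ψ τ

/-- (W5) assembly of the final deliverable. -/
def StmtWAsm : Prop :=
  StmtGSel → StmtWHyp → StmtWPhi → StmtWTransfer → StmtGKill

/-- (W1f) assembly of `StmtWHyp`. -/
def StmtWHypAsm : Prop :=
  StmtWDet → StmtWChiSurj → StmtWIrr → StmtWCyc → StmtWHyp

end Fermat.Agent.TW.G.Wire

end
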