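/-
TW-G / G-wire, piece W1b (helper88): the mod `p` cyclotomic character `G_ℚ → (ℤ/p)ˣ` is
surjective.

`Gal(ℚ(ζ_p)/ℚ) ≃ (ℤ/p)ˣ` (irreducibility of the cyclotomic polynomial over `ℚ`, Mathlib's
`IsCyclotomicExtension.Rat.galEquivZMod`), and every automorphism of `ℚ(ζ_p)` extends to `ℚ̄`
(`AlgEquiv.liftNormal`).

`stmtWChiSurj : StmtWChiSurj`.
-/
import Fermat.Agent.TW.G.Wire.Plan
import Fermat.Agent.TW.S.Line

set_option autoImplicit false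

noncomputable section

namespace Fermat.Agent.TW.G.Wire

open Fermat.Agent.PT Fermat.Agent.PT.B ExtCitation IntermediateField Fermat.Agent.TW.S

/-- `ℚ̄ / ℚ` is normal (for the instance of `Algebra ℚ ℚ̄` found by unification) -/
theorem gwc_qbar_normal : Normal ℚ (AlgebraicClosure ℚ) := by
  have h1 : @Normal ℚ (AlgebraicClosure ℚ) _ _ (AlgebraicClosure.instAlgebra ℚ) := inferInstance
  convert h1
  exact Subsingleton.elim _ _

/-- every `u ∈ (ℤ/p)ˣ` is realised on a primitive `p`-th root of unity by an element of `G_ℚ` -/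
theorem gwc_exists (p : ℕ) [NeZero p] {ζ : AlgebraicClosure ℚ} (hζ : IsPrimitiveRoot ζ p)
    (u : (ZMod p)ˣ) : ∃ σ : GQ, σ ζ = ζ ^ (u : ZMod p).val := by
  have hnorm : Normal ℚ (AlgebraicClosure ℚ) := gwc_qbar_normal
  have hint : Algebra.IsIntegral ℚ (AlgebraicClosure ℚ) := inferInstance
  have hcyc : IsCyclotomicExtension {p} ℚ ℚ⟮ζ⟯ :=
    hζ.intermediateField_adjoin_isCyclotomicExtension ℚ
  have : NumberField ℚ⟮ζ⟯ := IsCyclotomicExtension.numberField {p} ℚ _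
  let τ : ℚ⟮ζ⟯ ≃ₐ[ℚ] ℚ⟮ζ⟯ := (IsCyclotomicExtension.Rat.galEquivZMod p ℚ⟮ζ⟯).symm u
  have hτ : IsCyclotomicExtension.Rat.galEquivZMod p ℚ⟮ζ⟯ τ = u :=
    MulEquiv.apply_symm_apply _ u
  let z : ℚ⟮ζ⟯ := ⟨ζ, mem_adjoin_simple_self ℚ ζ⟩
  have hz : z ^ p = 1 := Subtype.ext (by
    show ζ ^ p = 1
    exact hζ.pow_eq_one)
  have h1 := IsCyclotomicExtension.Rat.galEquivZMod_apply_of_pow_eq p ℚ⟮ζ⟯ τ hz
  rw [hτ] at h1
  refine ⟨τ.liftNormal (AlgebraicClosure ℚ), ?_⟩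
  have h2 := AlgEquiv.liftNormal_commutes τ (AlgebraicClosure ℚ) z
  have h3 : algebraMap ℚ⟮ζ⟯ (AlgebraicClosure ℚ) z = ζ := rfl
  rw [h3, h1] at h2
  rw [h2]
  rfl

/-- **W1b** -/
theorem stmtWChiSurj : StmtWChiSurj := by
  intro p _ u
  have hp : p.Prime := Fact.out
  have : NeZero p := ⟨hp.ne_zero⟩
  obtain ⟨ζ, hζ⟩ := HasEnoughRootsOfUnity.exists_primitiveRoot (AlgebraicClosure ℚ) p
  obtain ⟨σ, hσ⟩ := gwc_exists p hζ u
  refine ⟨σ, ?_⟩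
  have h3 := sline_cycloChar_spec p σ ζ hζ.pow_eq_one
  apply Units.ext
  apply ZMod.val_injective p
  exact hζ.pow_inj (ZMod.val_lt _) (ZMod.val_lt _) (h3.symm.trans hσ)

end Fermat.Agent.TW.G.Wire

end
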