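/-
TW-G / G-wire, piece W1d (helper88): `N_n = Gal(ℚ̄/ℚ(μ_{p^(n+1)}))` is normal in `G_ℚ`, the
quotient `G_ℚ/N_n` is cyclic for `p` odd (it embeds in `(ℤ/p^(n+1))ˣ` by the cyclotomic character
mod `p^(n+1)`), and the mod `p` cyclotomic character is trivial on `N_n`.

`stmtWCyc : StmtWCyc`.
-/
import Fermat.Agent.TW.G.Wire.Plan
import Fermat.Agent.PT.B.CycloField

set_option autoImplicit false

noncomputable section

namespace Fermat.Agent.TW.G.Wire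

open Fermat.Agent.PT Fermat.Agent.PT.B ExtCitation

/-- `N_n` is normal -/
theorem gwy_normal (p n : ℕ) : (Nn p n).Normal := by
  constructor
  intro σ hσ g μ hμ
  show g (σ (g⁻¹ μ)) = μ
  have h1 : (g⁻¹ μ) ^ p ^ (n + 1) = 1 := by rw [← map_pow, hμ, map_one]
  rw [hσ _ h1]
  show (g * g⁻¹) μ = μ
  rw [mul_inv_cancel]
  rfl

/-- the number of `N`-th roots of unity in `ℚ̄` -/
theorem gwy_card (N : ℕ) [NeZero N] :
    Nat.card (rootsOfUnity N (AlgebraicClosure ℚ)) = N :=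
  haveI : NeZero (N : AlgebraicClosure ℚ) := ⟨Nat.cast_ne_zero.mpr (NeZero.ne N)⟩
  HasEnoughRootsOfUnity.natCard_rootsOfUnity (AlgebraicClosure ℚ) N

/-- the cyclotomic character mod `N` of `G_ℚ` -/
def gwyChar (N : ℕ) [NeZero N] : GQ →* (ZMod N)ˣ :=
  (modularCyclotomicCharacter (AlgebraicClosure ℚ) (gwy_card N)).comp
    (MulSemiringAction.toRingAut GQ (AlgebraicClosure ℚ))

theorem gwyChar_spec (N : ℕ) [NeZero N] (σ : GQ) (μ : AlgebraicClosure ℚ) (hμ : μ ^ N = 1) :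
    σ μ = μ ^ ((gwyChar N σ : (ZMod N)ˣ) : ZMod N).val := by
  have hμ0 : μ ≠ 0 := by
    rintro rfl
    rw [zero_pow (NeZero.ne N)] at hμ
    exact zero_ne_one hμ
  set t : (AlgebraicClosure ℚ)ˣ := Units.mk0 μ hμ0 with ht
  have htmem : t ∈ rootsOfUnity N (AlgebraicClosure ℚ) := by
    rw [mem_rootsOfUnity]
    ext
    simpa [ht] using hμ
  have h := modularCyclotomicCharacter.spec (AlgebraicClosure ℚ) (gwy_card N)
    (MulSemiringAction.toRingAut GQ (AlgebraicClosure ℚ) σ) htmem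
  simpa [ht, gwyChar] using h

/-- the kernel of the cyclotomic character mod `p^(n+1)` is contained in `N_n` -/
theorem gwyChar_ker (p n : ℕ) [NeZero (p ^ (n + 1))] (hp : 1 < p) (σ : GQ)
    (h : gwyChar (p ^ (n + 1)) σ = 1) : σ ∈ Nn p n := by
  intro μ hμ
  have h1 := gwyChar_spec (p ^ (n + 1)) σ μ hμ
  rw [h] at h1
  have hN : 1 < p ^ (n + 1) := Nat.one_lt_pow (Nat.succ_ne_zero n) hp
  have : Fact (1 < p ^ (n + 1)) := ⟨hN⟩
  have hval : ((1 : (ZMod (p ^ (n + 1)))ˣ) : ZMod (p ^ (n + 1))).val = 1 := by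
    rw [Units.val_one]
    exact ZMod.val_one _
  rw [hval, pow_one] at h1
  exact h1

/-- `G_ℚ / N_n` is cyclic for `p` odd -/
theorem gwy_cyclic (p : ℕ) [Fact p.Prime] (hp2 : p ≠ 2) (n : ℕ) :
    ∃ γ : GQ, ∀ σ : GQ, ∃ a : ℤ, γ ^ a * σ ∈ Nn p n := by
  have hp : p.Prime := Fact.out
  have : NeZero (p ^ (n + 1)) := ⟨pow_ne_zero _ hp.ne_zero⟩
  have : IsCyclic (ZMod (p ^ (n + 1)))ˣ := ZMod.isCyclic_units_of_prime_pow p hp hp2 (n + 1)
  have : IsCyclic (gwyChar (p ^ (n + 1))).range := Subgroup.isCyclic _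
  obtain ⟨⟨g, hg⟩, hgen⟩ := IsCyclic.exists_generator (α := (gwyChar (p ^ (n + 1))).range)
  obtain ⟨γ, rfl⟩ := hg
  refine ⟨γ, fun σ => ?_⟩
  have h1 := hgen ⟨gwyChar (p ^ (n + 1)) σ, ⟨σ, rfl⟩⟩
  obtain ⟨k, hk⟩ := Subgroup.mem_zpowers_iff.1 h1
  have hk' : (gwyChar (p ^ (n + 1)) γ) ^ k = gwyChar (p ^ (n + 1)) σ := by
    have := congrArg Subtype.val hk
    simpa using this
  refine ⟨-k, gwyChar_ker p n hp.one_lt _ ?_⟩
  rw [map_mul, map_zpow, zpow_neg, hk', inv_mul_cancel]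

/-- the mod `p` cyclotomic character is trivial on `N_n` -/
theorem gwy_chi_one (p : ℕ) [Fact p.Prime] (n : ℕ) (σ : GQ) (hσ : σ ∈ Nn p n) :
    cycloChar p σ = 1 := by
  rw [cycloChar_eq_one_iff, mem_fixingSubgroup_cycloField_iff]
  intro x hx
  apply hσ
  rw [pow_succ', pow_mul, hx, one_pow]

/-- **W1d** -/
theorem stmtWCyc : StmtWCyc := by
  intro p _ hp2 n
  exact ⟨gwy_normal p n, gwy_cyclic p hp2 n, fun σ hσ => gwy_chi_one p n σ hσ⟩

end Fermat.Agent.TW.G.Wire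

end
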