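/-
TW-G / G-wire piece W1a (helper35): `det ρ̄ = χ̄` in matrix form.

`stmtWDet : StmtWDet`: if `det ρ̄` is cyclotomic (prelude sense, for `ρ̄` as a representation over
the field `k` of characteristic `p`), then `det (rhoGL ρ̄ b σ) = χ̄(σ)` in `k`, for every basis `b`.

Proof.  `σ` acts on `μ_p` by the `χ̄(σ)`-th power (`modularCyclotomicCharacter.spec`), so the
prelude's condition at level `n = 1` reads `det ρ̄(σ) - χ̄(σ) ∈ (p) = 0`; the determinant of the
matrix in a basis is the determinant of the endomorphism.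
-/
import Fermat.Agent.TW.G.Wire.Plan

set_option autoImplicit false

namespace Fermat.Agent.TW.G.Wire

open Fermat.Agent.PT Fermat.Agent.PT.B Fermat.Agent.TW.S ExtCitation Fermat.Agent.TW.G.Sel

/-- The action of `σ` on the `p`-th roots of unity is the `χ̄(σ)`-th power. -/
theorem gwd_cycloChar_spec (p : ℕ) [Fact p.Prime] (σ : GQ) (μ : AlgebraicClosure ℚ)
    (hμ : μ ^ p = 1) : σ μ = μ ^ ((cycloChar p σ : (ZMod p)ˣ) : ZMod p).val := by
  have hp : p.Prime := Fact.out
  have : NeZero p := ⟨hp.ne_zero⟩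
  have hμ0 : μ ≠ 0 := by
    rintro rfl
    rw [zero_pow hp.ne_zero] at hμ
    exact zero_ne_one hμ
  set t : (AlgebraicClosure ℚ)ˣ := Units.mk0 μ hμ0 with ht
  have htmem : t ∈ rootsOfUnity p (AlgebraicClosure ℚ) := by
    rw [mem_rootsOfUnity]
    ext
    simpa [ht] using hμ
  have h := modularCyclotomicCharacter.spec (AlgebraicClosure ℚ) (card_rootsOfUnity_eq_self p)
    (σ : AlgebraicClosure ℚ ≃+* AlgebraicClosure ℚ) htmem
  simpa [ht, cycloChar] using h

/-- the determinant of `ρ̄(σ)` as an endomorphism -/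
theorem gwd_det_end {k : Type} [Field k] (p : ℕ) [Fact p.Prime] [CharP k p]
    (ρbar : ResidualGaloisRep k)
    (hdet : (GaloisRepAdic.ofResidualGaloisRep ρbar).DetIsCyclotomic p) (σ : GQ) :
    LinearMap.det (ρbar.ρ σ) = (((cycloChar p σ : (ZMod p)ˣ) : ZMod p).val : k) := by
  have h1 := hdet.2 1 σ ((cycloChar p σ : (ZMod p)ˣ) : ZMod p).val (fun μ hμ => by
    rw [pow_one] at hμ
    exact gwd_cycloChar_spec p σ μ hμ)
  have hρ : (GaloisRepAdic.ofResidualGaloisRep ρbar).ρ σ = ρbar.ρ σ := rfl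
  rw [hρ, pow_one, CharP.cast_eq_zero k p, Ideal.mem_span_singleton, zero_dvd_iff,
    sub_eq_zero] at h1
  exact h1

/-- **W1a**. -/
theorem stmtWDet : StmtWDet := by
  intro k _ p _ _ ρbar hdet b σ
  rw [rhoGL_val, LinearMap.det_toMatrix]
  exact gwd_det_end p ρbar hdet σ

end Fermat.Agent.TW.G.Wire
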