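/-
TW-G / G-wire W1f (helper54): assembly of `StmtWHyp` (the hypotheses `G.Sel.Hyp` of the group
theory for the matrix form of `ρ̄` and `N = Stab(μ_{p^(n+1)})`) from W1a–W1d.
-/
import Fermat.Agent.TW.G.Wire.Plan

set_option autoImplicit false
set_option linter.unusedSectionVars false

noncomputable section

namespace Fermat.Agent.TW.G.Wire

open CategoryTheory Polynomial IsLocalRing
open Fermat.Agent.PT Fermat.Agent.PT.B Fermat.Agent.TW.S ExtCitation Fermat.Agent.TW.G.Sel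

/-- `(a mod p).val = a` in a ring of characteristic `p` -/
lemma gwh_val_cast (k : Type) [Field k] (p : ℕ) [Fact p.Prime] [CharP k p] (a : ℤ) :
    (((a : ZMod p).val : ℕ) : k) = (a : k) := by
  have h1 : (((a : ZMod p).val : ℕ) : k) = ((((a : ZMod p).val : ℕ) : ℤ) : k) :=
    (Int.cast_natCast _).symm
  rw [h1, ZMod.val_intCast]
  rw [CharP.intCast_eq_intCast k p]
  exact Int.mod_modEq a p

/-- **W1f.** -/
theorem stmtWHypAsm : StmtWHypAsm := by
  intro hDet hSurj hIrr hCyc 𝒪 _ _ _ _ _ p _ _ ρbar S Smin hyp b n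
  have hdet := hDet (ResidueField 𝒪) p ρbar hyp.hdet b
  obtain ⟨hnorm, hcyc, hone⟩ := hCyc p hyp.hp2 n
  refine ⟨hyp.hp2, ?_, ?_, ?_, ?_, hIrr 𝒪 p ρbar S Smin hyp b, hnorm, hcyc⟩
  · intro σ
    exact ⟨(((cycloChar p σ : (ZMod p)ˣ) : ZMod p).val : ℤ), by rw [hdet σ, Int.cast_natCast]⟩
  · intro a ha
    have ha' : (a : ZMod p) ≠ 0 := by
      intro h0
      apply ha
      rw [← gwh_val_cast (ResidueField 𝒪) p a, h0, ZMod.val_zero, Nat.cast_zero]
    obtain ⟨σ, hσ⟩ := hSurj p (Units.mk0 (a : ZMod p) ha')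
    refine ⟨σ, ?_⟩
    rw [hdet σ, hσ, Units.val_mk0, gwh_val_cast]
  · intro σ hσ
    rw [hdet σ, hone σ hσ, Units.val_one]
    have := gwh_val_cast (ResidueField 𝒪) p 1
    rw [Int.cast_one, Int.cast_one] at this
    exact this
  · intro σ
    obtain ⟨α, β, h⟩ := hyp.hsplit σ
    refine ⟨α, β, ?_⟩
    rw [rhoGL_val, LinearMap.charpoly_toMatrix]
    exact h

end Fermat.Agent.TW.G.Wire

end
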