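/-
TW-G / G-wire W1c (helper54): absolute irreducibility (`habs`, `hTW`) in the matrix form
`G.Sel.NoEigen`: no common eigenvector over `k̄` for `G_ℚ` and for the subgroups of index `2`.
-/
import Fermat.Agent.TW.G.Wire.Plan

set_option autoImplicit false
set_option linter.unusedSectionVars false

noncomputable section

namespace Fermat.Agent.TW.G.Wire

open CategoryTheory Polynomial IsLocalRing TensorProduct Matrix
open Fermat.Agent.PT Fermat.Agent.PT.B Fermat.Agent.TW.S ExtCitation Fermat.Agent.TW.G.Sel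

section

variable {k : Type} [Field k] (K : Type) [Field K] [Algebra k K]
  (ρbar : ResidualGaloisRep k) (b : Module.Basis (Fin 2) k ρbar.V)

/-- the vector of `K ⊗ V̄` with coordinates `v` -/
def gwiVec (v : Fin 2 → K) : K ⊗[k] ρbar.V := (Algebra.TensorProduct.basis K b).equivFun.symm v

lemma gwi_vec_ne_zero (v : Fin 2 → K) (hv : v ≠ 0) : gwiVec K ρbar b v ≠ 0 := by
  intro h
  apply hv
  have := congrArg (Algebra.TensorProduct.basis K b).equivFun h
  rwa [gwiVec, LinearEquiv.apply_symm_apply, map_zero] at this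

lemma gwi_apply (σ : GQ) (v : Fin 2 → K) :
    (ρbar.baseChange K).ρ σ (gwiVec K ρbar b v) =
      gwiVec K ρbar b (((rhoGL ρbar b σ).1.map (algebraMap k K)) *ᵥ v) := by
  have h1 : (ρbar.baseChange K).ρ σ = (ρbar.ρ σ).baseChange K := rfl
  rw [h1, rhoGL_val, ← LinearMap.toMatrix_baseChange (A := K) (ρbar.ρ σ) b b]
  apply (Algebra.TensorProduct.basis K b).equivFun.injective
  rw [gwiVec, gwiVec, LinearEquiv.apply_symm_apply]
  have h2 := LinearMap.toMatrix_mulVec_repr (Algebra.TensorProduct.basis K b) (Algebra.TensorProduct.basis K b)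
    ((ρbar.ρ σ).baseChange K) ((Algebra.TensorProduct.basis K b).equivFun.symm v)
  have h3 : ((Algebra.TensorProduct.basis K b).repr ((Algebra.TensorProduct.basis K b).equivFun.symm v) : Fin 2 → K) = v := by
    have := (Algebra.TensorProduct.basis K b).equivFun.apply_symm_apply v
    exact this
  rw [h3] at h2
  rw [h2]
  rfl

/-- a common eigenvector of `H` spans an `H`-stable line, which is neither `⊥` nor `⊤` -/
lemma gwi_main (H : Subgroup GQ)
    (hirr : ∀ W : Submodule K (ρbar.baseChange K).V,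
      (∀ σ ∈ H, ∀ x ∈ W, (ρbar.baseChange K).ρ σ x ∈ W) → W = ⊥ ∨ W = ⊤)
    (v : Fin 2 → K) (hv : v ≠ 0)
    (h : ∀ σ ∈ H, ∃ c : K, ((rhoGL ρbar b σ).1.map (algebraMap k K)) *ᵥ v = c • v) : False := by
  have hw := gwi_vec_ne_zero K ρbar b v hv
  have hstab : ∀ σ ∈ H, ∀ x ∈ (K ∙ gwiVec K ρbar b v : Submodule K (ρbar.baseChange K).V),
      (ρbar.baseChange K).ρ σ x ∈ (K ∙ gwiVec K ρbar b v : Submodule K (ρbar.baseChange K).V) := by
    intro σ hσ x hx
    obtain ⟨a, rfl⟩ := Submodule.mem_span_singleton.1 hx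
    obtain ⟨c, hc⟩ := h σ hσ
    rw [map_smul, gwi_apply, hc]
    have : gwiVec K ρbar b (c • v) = c • gwiVec K ρbar b v := by
      rw [gwiVec, gwiVec, map_smul]
    rw [this, smul_smul]
    exact Submodule.smul_mem _ _ (Submodule.mem_span_singleton_self _)
  rcases hirr _ hstab with h0 | h1
  · exact hw ((Submodule.span_singleton_eq_bot).1 h0)
  · have hrk : Module.finrank K (K ∙ gwiVec K ρbar b v : Submodule K (ρbar.baseChange K).V) = 1 :=
      finrank_span_singleton hw
    rw [h1, finrank_top] at hrk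
    have h2 : Module.finrank K (ρbar.baseChange K).V = 2 := (ρbar.baseChange K).finrank_eq
    omega

end

/-- **W1c.** -/
theorem stmtWIrr : StmtWIrr := by
  intro 𝒪 _ _ _ _ _ p _ _ ρbar S Smin hyp b H hH v hv hall
  rcases hH with rfl | hidx
  · refine gwi_main (AlgebraicClosure (ResidueField 𝒪)) ρbar b ⊤ (fun W hW => ?_) v hv hall
    exact hyp.habs W (fun σ x hx => hW σ (Subgroup.mem_top σ) x hx)
  · exact gwi_main (AlgebraicClosure (ResidueField 𝒪)) ρbar b H
      (fun W hW => hyp.hTW (AlgebraicClosure (ResidueField 𝒪)) H hidx W hW) v hv hall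

end Fermat.Agent.TW.G.Wire

end
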