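import Fermat.Agent.TW.G.Wire.Plan
import Fermat.Agent.TW.L.AdGlob1
import Fermat.Agent.TW.G.Wire.Det

/-!
# TW-G / G-wire W2 (helper26): the dictionary `ad⁰(1) ≅ (trace-zero matrices, twisted adjoint action)`

`stmtWPhi_of : StmtWDet → StmtWPhi`.
`Φ(f) =` the matrix (in the basis `b`) of the unique trace-zero endomorphism `x` with
`f(a) = Tr_{k/𝔽_p} tr(x a)` (`TW/L/AdGlob1.lean`, helper83).
-/

set_option autoImplicit false
set_option linter.unusedSectionVars false
set_option linter.unusedVariables false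
set_option linter.style.haveILetI false

noncomputable section

namespace Fermat.Agent.TW.G.Wire

open CategoryTheory groupCohomology Polynomial IsLocalRing
open Fermat.Agent.PT Fermat.Agent.PT.B Fermat.Agent.TW.S Fermat.Agent.TW.L ExtCitation
open Fermat.Agent.TW.G.Sel

/-- the twisted adjoint action in terms of a left inverse -/
lemma gwp_act {k : Type} [Field k] (R Rinv X : M2 k) (h : Rinv * R = 1) :
    act R X = R.det • (R * X * Rinv) := by
  unfold act
  have h1 : R * R.adjugate = R.det • (1 : M2 k) := Matrix.mul_adjugate R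
  calc R * X * R.adjugate = R * X * ((Rinv * R) * R.adjugate) := by rw [h, one_mul]
    _ = R * X * (Rinv * (R * R.adjugate)) := by rw [mul_assoc Rinv]
    _ = R * X * (Rinv * (R.det • (1 : M2 k))) := by rw [h1]
    _ = R.det • (R * X * Rinv) := by
      rw [Matrix.mul_smul, Matrix.mul_one, Matrix.mul_smul]

variable {k : Type} [Field k] [Finite k] (p : ℕ) [Fact p.Prime] [CharP k p]
  [Algebra (ZMod p) k] (ρbar : ResidualGaloisRep k)

/-- the scalars of `𝔽_p` act on `ad⁰` through `k` -/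
lemma gwp_val_smul (a : ZMod p) (y : (ad0Rep p ρbar).V) :
    ad0Val p ρbar (a • y) = ((a.val : ℕ) : k) • ad0Val p ρbar y := by
  have h1 : a • y = a.val • y := by
    conv_lhs => rw [← ZMod.natCast_zmod_val a]
    exact Nat.cast_smul_eq_nsmul (ZMod p) a.val y
  rw [h1, map_nsmul, Nat.cast_smul_eq_nsmul]

/-- the dual twist in terms of the trace form -/
lemma gwp_twist (σ : GQ) (x : (ad0Rep p ρbar).V) :
    (adTw p ρbar).ρ σ (gglob1Map p ρbar x) =
      gglob1Map p ρbar (((cycloChar p σ : (ZMod p)ˣ) : ZMod p) • (ad0Rep p ρbar).ρ σ x) := by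
  apply LinearMap.ext
  intro a
  rw [map_smul, LinearMap.smul_apply, Rep.dualTwist_ρ_apply, LinearMap.smul_apply,
    LinearMap.comp_apply, gglob1Map_apply, gglob1Map_apply]
  congr 1
  unfold gglob1Pair
  rw [ad0Val_ρ, ad0Val_ρ, inv_inv]
  congr 1
  calc LinearMap.trace k ρbar.V
        (ad0Val p ρbar x * (ρbar.ρ σ⁻¹ * ad0Val p ρbar a * ρbar.ρ σ))
      = LinearMap.trace k ρbar.V
        ((ad0Val p ρbar x * ρbar.ρ σ⁻¹ * ad0Val p ρbar a) * ρbar.ρ σ) := by
          simp only [mul_assoc]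
    _ = LinearMap.trace k ρbar.V
        (ρbar.ρ σ * (ad0Val p ρbar x * ρbar.ρ σ⁻¹ * ad0Val p ρbar a)) :=
          LinearMap.trace_mul_comm k _ _
    _ = LinearMap.trace k ρbar.V
        (ρbar.ρ σ * ad0Val p ρbar x * ρbar.ρ σ⁻¹ * ad0Val p ρbar a) := by
          simp only [mul_assoc]

/-- **W2** from **W1a**. -/
theorem stmtWPhi_of (hdet : StmtWDet) : StmtWPhi := by
  intro k _ _ p _ _ hp ρbar hcyc b
  letI : Algebra (ZMod p) k := ZMod.algebra k p
  let e : (ad0Rep p ρbar).V ≃ₗ[ZMod p] Module.Dual (ZMod p) (ad0Rep p ρbar).V :=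
    LinearEquiv.ofBijective (gglob1Map p ρbar)
      ⟨gglob1Map_injective p ρbar hp, gglob1Map_surjective p ρbar hp⟩
  have he : ∀ x, e x = gglob1Map p ρbar x := fun x => rfl
  let Φ : (adTw p ρbar).V →+ M2 k :=
    { toFun := fun f => LinearMap.toMatrix b b (ad0Val p ρbar (e.symm f))
      map_zero' := by rw [map_zero, map_zero, map_zero]
      map_add' := fun f g => by rw [map_add, map_add, map_add] }
  have hΦ : ∀ f, Φ f = LinearMap.toMatrix b b (ad0Val p ρbar (e.symm f)) := fun f => rfl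
  refine ⟨Φ, ?_, ?_, ?_, ?_⟩
  · intro f g hfg
    rw [hΦ, hΦ] at hfg
    have h1 := (LinearMap.toMatrix b b).injective hfg
    have h2 := ad0Val_injective p ρbar h1
    exact e.symm.injective h2
  · intro f
    rw [hΦ, ← LinearMap.trace_eq_matrix_trace k b]
    exact trace_ad0Val p ρbar _
  · intro m hm
    obtain ⟨X, hX⟩ : ∃ X : Module.End k ρbar.V, LinearMap.toMatrix b b X = m :=
      (LinearMap.toMatrix b b).surjective m
    have hXtr : LinearMap.trace k ρbar.V X = 0 := by
      rw [LinearMap.trace_eq_matrix_trace k b, hX]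
      exact hm
    obtain ⟨x, hx⟩ := exists_ad0Val_eq p ρbar X hXtr
    refine ⟨e x, ?_⟩
    rw [hΦ, LinearEquiv.symm_apply_apply, hx, hX]
  · intro σ f
    obtain ⟨x, rfl⟩ := e.surjective f
    have hinv : LinearMap.toMatrix b b (ρbar.ρ σ⁻¹) * (rhoGL ρbar b σ).1 = 1 := by
      rw [rhoGL_val, ← LinearMap.toMatrix_mul, rho_inv_mul, LinearMap.toMatrix_one]
    rw [hΦ, hΦ, LinearEquiv.symm_apply_apply, he, gwp_twist, ← he, LinearEquiv.symm_apply_apply,
      gwp_val_smul, ad0Val_ρ, map_smul, LinearMap.toMatrix_mul, LinearMap.toMatrix_mul,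
      gwp_act (rhoGL ρbar b σ).1 (LinearMap.toMatrix b b (ρbar.ρ σ⁻¹)) _ hinv,
      hdet k p ρbar hcyc b σ, rhoGL_val]

/-- **W2.** -/
theorem stmtWPhi : StmtWPhi := stmtWPhi_of stmtWDet

end Fermat.Agent.TW.G.Wire

end
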