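/-
TW-G / G-wire W3 (helper54): transfer of "coboundary at `σ`" between two elements which generate
the same cyclic group modulo a subgroup on which `ρ` is trivial and `ψ` is constant.
-/
import Fermat.Agent.TW.G.Wire.Plan
import Fermat.Agent.TW.G.Sel

set_option autoImplicit false
set_option linter.unusedSectionVars false

noncomputable section

namespace Fermat.Agent.TW.G.Wire

open Fermat.Agent.TW.G.Sel

variable {k : Type} [Field k] {Γ : Type} [Group Γ] {ρ : Γ →* GL (Fin 2) k} {ψ : Γ → M2 k}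

lemma gwt_one (h : IsCoc ρ ψ) : ψ 1 = 0 := by
  have h1 := h.map_mul 1 1
  rw [mul_one, map_one, Units.val_one, gsel_act_one] at h1
  exact left_eq_add.1 h1

lemma gwt_pow (h : IsCoc ρ ψ) (σ : Γ) (m : M2 k) (hm : ψ σ = act (ρ σ).1 m - m) (j : ℕ) :
    ψ (σ ^ j) = act (ρ (σ ^ j)).1 m - m := by
  induction j with
  | zero =>
    rw [pow_zero, gwt_one h, map_one, Units.val_one, gsel_act_one, sub_self]
  | succ j ih =>
    rw [pow_succ', h.map_mul, ih, hm, map_mul, Units.val_mul, gsel_act_mul, gsel_act_sub]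
    abel

/-- **W3** (G-transfer). -/
theorem stmtWTransfer : StmtWTransfer := by
  intro k _ Γ _ ρ ψ h U hρ hψ σ τ j hU hcob
  obtain ⟨m, hm0, hm⟩ := hcob
  refine ⟨m, hm0, ?_⟩
  have e : τ = σ ^ j * ((σ ^ j)⁻¹ * τ) := by group
  have h1 : ψ τ = ψ (σ ^ j) := by
    conv_lhs => rw [e]
    exact hψ _ _ hU
  have h2 : ρ τ = ρ (σ ^ j) := by
    conv_lhs => rw [e]
    rw [map_mul, hρ _ hU, mul_one]
  rw [h1, h2]
  exact gwt_pow h σ m hm j

end Fermat.Agent.TW.G.Wire

end
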