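import Fermat.Agent.TW.G.Wire.Asm
import Fermat.Agent.TW.G.Wire.Phi
import Fermat.Agent.TW.G.Wire.Transfer
import Fermat.Agent.TW.G.Wire.Hyp
import Fermat.Agent.TW.G.Wire.Irr
import Fermat.Agent.TW.G.Wire.ChiSurj
import Fermat.Agent.TW.G.Wire.Cyc
import Fermat.Agent.TW.G.Wire.Det

/-!
# TW-G / G-wire (helper26): the final deliverable `stmtGKill : StmtGKill`, unconditional

Taylor–Wiles primes kill any finite-dimensional space of level classes of `H¹(G_ℚ, ad⁰ρ̄(1))`.
-/

set_option autoImplicit false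

namespace Fermat.Agent.TW.G.Wire

open Fermat.Agent.TW.G.Sel

/-- **W1**: the hypotheses of S56 give the abstract hypotheses of G-sel. -/
theorem stmtWHyp : StmtWHyp :=
  stmtWHypAsm stmtWDet stmtWChiSurj stmtWIrr stmtWCyc

/-- **The final deliverable of TW-G.** -/
theorem stmtGKill : StmtGKill :=
  stmtWAsm stmtGSel stmtWHyp stmtWPhi stmtWTransfer

end Fermat.Agent.TW.G.Wire
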