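import Fermat.Agent.TW.G.Wire.Plan

/-!
# TW-G / G-wire W5 (helper26): assembly of `StmtGKill`

`stmtWAsm : StmtWAsm`, i.e. `StmtGSel → StmtWHyp → StmtWPhi → StmtWTransfer → StmtGKill`.
-/

set_option autoImplicit false
set_option linter.unusedSectionVars false
set_option linter.unusedVariables false

noncomputable section

namespace Fermat.Agent.TW.G.Wire

open CategoryTheory groupCohomology Polynomial IsLocalRing
open Fermat.Agent.PT Fermat.Agent.PT.B Fermat.Agent.TW.S ExtCitation Fermat.Agent.TW.G.Sel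

variable {k : Type} [Field k] (p : ℕ) [Fact p.Prime] [CharP k p] (ρbar : ResidualGaloisRep k)

/-! ### `TrivAtFrob` is a linear condition, invariant under coboundaries -/

lemma gwa_triv_zero (q : ℕ) : TrivAtFrob p ρbar (fun _ => 0) q := by
  intro A hA τ hτ
  exact ⟨0, by simp⟩

lemma gwa_triv_add {c₁ c₂ : GQ → (adTw p ρbar).V} {q : ℕ} (h₁ : TrivAtFrob p ρbar c₁ q)
    (h₂ : TrivAtFrob p ρbar c₂ q) : TrivAtFrob p ρbar (fun σ => c₁ σ + c₂ σ) q := by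
  intro A hA τ hτ
  obtain ⟨m₁, hm₁⟩ := h₁ A hA τ hτ
  obtain ⟨m₂, hm₂⟩ := h₂ A hA τ hτ
  refine ⟨m₁ + m₂, ?_⟩
  show c₁ τ + c₂ τ = _
  rw [hm₁, hm₂, map_add]
  abel

lemma gwa_triv_sub {c₁ c₂ : GQ → (adTw p ρbar).V} {q : ℕ} (h₁ : TrivAtFrob p ρbar c₁ q)
    (h₂ : TrivAtFrob p ρbar c₂ q) : TrivAtFrob p ρbar (fun σ => c₁ σ - c₂ σ) q := by
  intro A hA τ hτ
  obtain ⟨m₁, hm₁⟩ := h₁ A hA τ hτ
  obtain ⟨m₂, hm₂⟩ := h₂ A hA τ hτ
  refine ⟨m₁ - m₂, ?_⟩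
  show c₁ τ - c₂ τ = _
  rw [hm₁, hm₂, map_sub]
  abel

lemma gwa_triv_smul (a : ZMod p) {c : GQ → (adTw p ρbar).V} {q : ℕ}
    (h : TrivAtFrob p ρbar c q) : TrivAtFrob p ρbar (fun σ => a • c σ) q := by
  intro A hA τ hτ
  obtain ⟨m, hm⟩ := h A hA τ hτ
  refine ⟨a • m, ?_⟩
  show a • c τ = _
  rw [hm, map_smul, smul_sub]

lemma gwa_triv_cob (x : (adTw p ρbar).V) (q : ℕ) :
    TrivAtFrob p ρbar (fun σ => (adTw p ρbar).ρ σ x - x) q := by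
  intro A hA τ hτ
  exact ⟨x, rfl⟩

/-- a coboundary, in elementary form -/
lemma gwa_mem_cob {f : GQ → (adTw p ρbar).V} (hf : f ∈ coboundaries₁ (adTw p ρbar)) :
    ∃ x : (adTw p ρbar).V, ∀ σ, f σ = (adTw p ρbar).ρ σ x - x := by
  obtain ⟨x, hx⟩ := hf
  refine ⟨x, fun σ => ?_⟩
  rw [← hx]
  rfl

lemma gwa_cob_mem {f : GQ → (adTw p ρbar).V} (x : (adTw p ρbar).V)
    (hf : ∀ σ, f σ = (adTw p ρbar).ρ σ x - x) : f ∈ coboundaries₁ (adTw p ρbar) := by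
  refine ⟨x, ?_⟩
  funext σ
  rw [hf σ]
  rfl

/-- independence of the representative -/
lemma gwa_triv_of_class {c c' : cocycles₁ (adTw p ρbar)} {q : ℕ}
    (h : (H1π (adTw p ρbar)).hom c = (H1π (adTw p ρbar)).hom c')
    (hc : TrivAtFrob p ρbar (c : GQ → (adTw p ρbar).V) q) :
    TrivAtFrob p ρbar (c' : GQ → (adTw p ρbar).V) q := by
  have h1 : (⇑c' - ⇑c : GQ → (adTw p ρbar).V) ∈ coboundaries₁ (adTw p ρbar) :=
    (H1π_eq_iff c' c).1 h.symm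
  obtain ⟨x, hx⟩ := gwa_mem_cob p ρbar h1
  have h2 := gwa_triv_add p ρbar hc (gwa_triv_cob p ρbar x q)
  intro A hA τ hτ
  obtain ⟨m, hm⟩ := h2 A hA τ hτ
  refine ⟨m, ?_⟩
  rw [← hm]
  have h3 : c' τ - c τ = (adTw p ρbar).ρ τ x - x := hx τ
  show c' τ = c τ + ((adTw p ρbar).ρ τ x - x)
  rw [← h3]
  abel

/-- the classes which are trivial at the Frobenius elements over `q`, as a submodule -/
def gwaK (q : ℕ) : Submodule (ZMod p) (H1 (adTw p ρbar)) where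
  carrier := trivFrobH1 p ρbar q
  zero_mem' := ⟨0, map_zero _, gwa_triv_zero p ρbar q⟩
  add_mem' := by
    rintro y₁ y₂ ⟨c₁, rfl, h₁⟩ ⟨c₂, rfl, h₂⟩
    exact ⟨c₁ + c₂, map_add _ _ _, gwa_triv_add p ρbar h₁ h₂⟩
  smul_mem' := by
    rintro a y ⟨c, rfl, h⟩
    exact ⟨a • c, map_smul _ _ _, gwa_triv_smul p ρbar a h⟩

lemma gwa_mem_K (q : ℕ) (y : H1 (adTw p ρbar)) :
    y ∈ gwaK p ρbar q ↔ y ∈ trivFrobH1 p ρbar q := Iff.rfl

/-! ### The dictionary for cocycles -/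

section Dict

variable {p ρbar}
variable (b : Module.Basis (Fin 2) k ρbar.V)
  (Φ : (adTw p ρbar).V →+ M2 k) (hΦinj : Function.Injective Φ)
  (hΦtr : ∀ x, (Φ x).trace = 0) (hΦsurj : ∀ m : M2 k, m.trace = 0 → ∃ x, Φ x = m)
  (hΦact : ∀ (σ : GQ) (x : (adTw p ρbar).V),
    Φ ((adTw p ρbar).ρ σ x) = act (rhoGL ρbar b σ).1 (Φ x))

include hΦtr hΦact in
lemma gwa_isCoc (c : cocycles₁ (adTw p ρbar)) :
    IsCoc (rhoGL ρbar b) (fun σ => Φ (c σ)) := by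
  refine ⟨fun σ => hΦtr _, fun σ τ => ?_⟩
  show Φ (c (σ * τ)) = Φ (c σ) + act (rhoGL ρbar b σ).1 (Φ (c τ))
  have h := (mem_cocycles₁_iff (⇑c)).1 c.2 σ τ
  rw [h, map_add, hΦact, add_comm]

include hΦinj hΦsurj hΦact in
lemma gwa_not_isCob (c : cocycles₁ (adTw p ρbar))
    (hne : (H1π (adTw p ρbar)).hom c ≠ 0) :
    ¬ IsCob (rhoGL ρbar b) (fun σ => Φ (c σ)) := by
  rintro ⟨m, hm0, hm⟩
  obtain ⟨x, rfl⟩ := hΦsurj m hm0
  apply hne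
  rw [H1π_eq_zero_iff]
  refine gwa_cob_mem p ρbar x fun σ => ?_
  apply hΦinj
  rw [map_sub, hΦact]
  exact hm σ

include hΦinj hΦtr hΦsurj hΦact in
lemma gwa_isCobAt_iff (c : GQ → (adTw p ρbar).V) (τ : GQ) :
    IsCobAt (rhoGL ρbar b) (fun σ => Φ (c σ)) τ ↔
      ∃ m : (adTw p ρbar).V, c τ = (adTw p ρbar).ρ τ m - m := by
  constructor
  · rintro ⟨m, hm0, hm⟩
    obtain ⟨x, rfl⟩ := hΦsurj m hm0
    refine ⟨x, ?_⟩
    apply hΦinj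
    rw [map_sub, hΦact]
    exact hm
  · rintro ⟨m, hm⟩
    refine ⟨Φ m, hΦtr m, ?_⟩
    show Φ (c τ) = _
    rw [hm, map_sub, hΦact]

end Dict

/-! ### Detection of a class by a Taylor–Wiles prime -/

section Main

variable {p ρbar}

lemma gwa_charpoly (b : Module.Basis (Fin 2) k ρbar.V) (σ : GQ) :
    (rhoGL ρbar b σ).1.charpoly = LinearMap.charpoly (ρbar.ρ σ) := by
  rw [rhoGL_val]
  exact LinearMap.charpoly_toMatrix (ρbar.ρ σ) b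

lemma gwa_rhoGL_congr (b : Module.Basis (Fin 2) k ρbar.V) {σ τ : GQ}
    (h : ρbar.ρ σ = ρbar.ρ τ) : rhoGL ρbar b σ = rhoGL ρbar b τ := by
  apply Units.ext
  rw [rhoGL_val, rhoGL_val, h]

theorem gwa_detect [Finite k] (hGSel : StmtGSel) (hWTr : StmtWTransfer)
    (b : Module.Basis (Fin 2) k ρbar.V) (n : ℕ) (hH : Hyp p (rhoGL ρbar b) (Nn p n))
    (Φ : (adTw p ρbar).V →+ M2 k) (hΦinj : Function.Injective Φ)
    (hΦtr : ∀ x, (Φ x).trace = 0) (hΦsurj : ∀ m : M2 k, m.trace = 0 → ∃ x, Φ x = m)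
    (hΦact : ∀ (σ : GQ) (x : (adTw p ρbar).V),
      Φ ((adTw p ρbar).ρ σ x) = act (rhoGL ρbar b σ).1 (Φ x))
    (S : Finset ℕ) (hpS : p ∈ S) (hunr : ∀ q : ℕ, q.Prime → q ∉ S → ρbar.IsUnramifiedAt q)
    (c : cocycles₁ (adTw p ρbar)) (hc : IsLevCoc p ρbar (c : GQ → (adTw p ρbar).V))
    (hne : (H1π (adTw p ρbar)).hom c ≠ 0) :
    ∃ q : ℕ, q.Prime ∧ q ∉ S ∧ p ^ (n + 1) ∣ q - 1 ∧
      (∀ P : ValuationSubring (AlgebraicClosure ℚ), P.LiesOverPrime q →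
        ∀ φ : GQ, P.IsFrobeniusAt φ q →
          ∃ α β : k, α ≠ β ∧ LinearMap.charpoly (ρbar.ρ φ) = (X - C α) * (X - C β)) ∧
      (H1π (adTw p ρbar)).hom c ∉ trivFrobH1 p ρbar q := by
  have hcoc := gwa_isCoc b Φ hΦtr hΦact c
  have hncob := gwa_not_isCob b Φ hΦinj hΦsurj hΦact c hne
  obtain ⟨σ, hσN, ⟨α, β, hαβ, hchar⟩, hσ⟩ :=
    hGSel p k GQ (rhoGL ρbar b) (Nn p n) hH _ hcoc hncob
  obtain ⟨-, F, hF, hFc⟩ := hc
  rw [gwa_charpoly] at hchar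
  obtain ⟨q, hq, hqS, hdvd, hall, A, τ, m, j, hA, hτ, hτm, hσj, hρτ, hρσ⟩ :=
    twc_exists_prime ρbar p S hpS hunr F n σ hσN α β hαβ hchar
  refine ⟨q, hq, hqS, hdvd, hall, ?_⟩
  rintro ⟨c', hc', htriv⟩
  have h1 : TrivAtFrob p ρbar (c : GQ → (adTw p ρbar).V) q :=
    gwa_triv_of_class p ρbar hc' htriv
  have h2 : IsCobAt (rhoGL ρbar b) (fun σ => Φ (c σ)) τ :=
    (gwa_isCobAt_iff b Φ hΦinj hΦtr hΦsurj hΦact c τ).2 (h1 A hA τ hτ)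
  apply hσ
  refine hWTr k GQ (rhoGL ρbar b) _ hcoc (F.fixingSubgroup ⊓ (rhoGL ρbar b).ker) ?_ ?_ τ σ m ?_ h2
  · intro s hs
    exact MonoidHom.mem_ker.1 hs.2
  · intro g s hs
    show Φ (c (g * s)) = Φ (c g)
    rw [hFc g s hs.1]
  · have e1 : (τ ^ m)⁻¹ * σ ∈ F.fixingSubgroup := by
      rw [IntermediateField.mem_fixingSubgroup_iff]
      intro x hx
      show (τ ^ m)⁻¹ (σ x) = x
      rw [← hτm x hx]
      exact (τ ^ m).symm_apply_apply x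
    have e2 : (τ ^ m)⁻¹ * σ ∈ (rhoGL ρbar b).ker := by
      rw [MonoidHom.mem_ker, map_mul, map_inv]
      have h3 : rhoGL ρbar b σ = rhoGL ρbar b (τ ^ m) := by
        apply gwa_rhoGL_congr
        rw [hρσ, map_pow]
      rw [h3, inv_mul_cancel]
    exact ⟨e1, e2⟩

/-- **W5**: the assembly. -/
theorem stmtWAsm : StmtWAsm := by
  intro hGSel hWHyp hWPhi hWTr 𝒪 _ _ _ _ _ p _ _ ρbar S Smin hyp D₀ hfin hlev r hr n
  classical
  have b : Module.Basis (Fin 2) (ResidueField 𝒪) ρbar.V :=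
    Module.finBasisOfFinrankEq _ _ ρbar.finrank_eq
  have hH := hWHyp 𝒪 p ρbar S Smin hyp b n
  obtain ⟨Φ, hΦinj, hΦtr, hΦsurj, hΦact⟩ := hWPhi (ResidueField 𝒪) p hyp.hp2 ρbar hyp.hdet b
  have hpS : p ∈ S := hyp.hSmin hyp.hpSmin
  have hunr : ∀ (F : Finset ℕ) (q : ℕ), q.Prime → q ∉ S ∪ F → ρbar.IsUnramifiedAt q := by
    intro F q hq hqS
    have hqS' : q ∉ S := fun h => hqS (Finset.mem_union_left _ h)
    have hqp : q ≠ p := fun h => hqS' (h ▸ hpS)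
    have h1 : ¬ ¬ ρbar.IsUnramifiedAt q :=
      fun h => hqS' (hyp.hSmin ((hyp.hmin q hq hqp).2 h))
    exact not_not.1 h1
  let Adm : Set ℕ := {q | q.Prime ∧ q ∉ S ∧ p ^ (n + 1) ∣ q - 1 ∧
    ∀ P : ValuationSubring (AlgebraicClosure ℚ), P.LiesOverPrime q →
      ∀ φ : GQ, P.IsFrobeniusAt φ q →
        ∃ α β : ResidueField 𝒪, α ≠ β ∧
          LinearMap.charpoly (ρbar.ρ φ) = (X - C α) * (X - C β)}
  let φ : ∀ q : ℕ, D₀ →ₗ[ZMod p] (H1 (adTw p ρbar) ⧸ gwaK p ρbar q) :=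
    fun q => (gwaK p ρbar q).mkQ.comp D₀.subtype
  have hφ : ∀ (q : ℕ) (y : D₀), φ q y = 0 ↔ (y : H1 (adTw p ρbar)) ∈ trivFrobH1 p ρbar q := by
    intro q y
    show (gwaK p ρbar q).mkQ (y : H1 (adTw p ρbar)) = 0 ↔ _
    rw [Submodule.mkQ_apply, Submodule.Quotient.mk_eq_zero]
    rfl
  have hinf : ∀ F : Finset ℕ, ∃ q ∈ Adm, q ∉ F := by
    intro F
    obtain ⟨σ, hσN, α, β, hαβ, hchar⟩ := stmtDist p _ GQ (rhoGL ρbar b) (Nn p n) hH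
    rw [gwa_charpoly] at hchar
    obtain ⟨q, hq, hqS, hdvd, hall, -⟩ :=
      twc_exists_prime ρbar p (S ∪ F) (Finset.mem_union_left _ hpS) (hunr F) ⊥ n σ hσN α β hαβ
        hchar
    exact ⟨q, ⟨hq, fun h => hqS (Finset.mem_union_left _ h), hdvd, hall⟩,
      fun h => hqS (Finset.mem_union_right _ h)⟩
  have h : ∀ ψ : D₀, ψ ≠ 0 → ∀ F : Finset ℕ, ∃ q ∈ Adm, q ∉ F ∧ φ q ψ ≠ 0 := by
    intro y hy F
    obtain ⟨c, hcy, hclev⟩ := hlev y y.2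
    have hne : (H1π (adTw p ρbar)).hom c ≠ 0 := by
      rw [hcy]
      intro h0
      exact hy (Subtype.ext h0)
    obtain ⟨q, hq, hqS, hdvd, hall, hnot⟩ :=
      gwa_detect hGSel hWTr b n hH Φ hΦinj hΦtr hΦsurj hΦact (S ∪ F)
        (Finset.mem_union_left _ hpS) (hunr F) c hclev hne
    refine ⟨q, ⟨hq, fun h => hqS (Finset.mem_union_left _ h), hdvd, hall⟩,
      fun h => hqS (Finset.mem_union_right _ h), ?_⟩
    rw [Ne, hφ, ← hcy]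
    exact hnot
  have : FiniteDimensional (ZMod p) D₀ := hfin
  obtain ⟨qv, hinj, hAdm, hker⟩ := gkill_exists φ Adm hinf h r hr
  refine ⟨qv, ⟨hinj, fun i => ⟨(hAdm i).1, (hAdm i).2.1, (hAdm i).2.2.1⟩,
    fun i => (hAdm i).2.2.2⟩, ?_⟩
  intro y hy hall
  have h0 := hker ⟨y, hy⟩ (fun i => (hφ _ _).2 (hall i))
  exact congrArg Subtype.val h0

end Main

end Fermat.Agent.TW.G.Wire

end
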