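/-
TW-G / G-wire piece W4 (helper35): a class whose restriction to `G_{ℚ_q}` vanishes is trivial at
the Frobenius elements over `q`.

`stmtWLoc : StmtWLoc`.

Proof.  `G_ℚ` is transitive on the places of `ℚ̄` over `q` (`gwl_exists_smul_eq`, from
`S14.exists_fixing_smul_eq` with `F = ℚ`: a rational number lies in a place over `q` iff `q` does
not divide its denominator).  So `A = g • padicPlace q`, and a Frobenius `τ` at `A` is
`g u g⁻¹` with `u` in the decomposition group of `padicPlace q`, i.e. `u = r_q(x)`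
(`TW.L.stmtDecFull`).  The cocycle identity gives `c(τ) = τ m' - m'` for `m' = g m - c(g)`.
No continuity of the cocycle is needed.
-/
import Fermat.Agent.TW.G.Wire.Plan
import Fermat.Agent.S14.ValGalois
import Fermat.Agent.S13.Minkowski
import Fermat.Agent.S05.FreyArith
import Fermat.Agent.TW.L.FrobExistsFinal

set_option autoImplicit false

namespace Fermat.Agent.TW.G.Wire

open CategoryTheory groupCohomology
open Fermat.Agent.PT Fermat.Agent.PT.B Fermat.Agent.TW.S Fermat.Agent.TW.L ExtCitation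
open scoped Pointwise

/-- a rational number lies in a place over `q` iff `q` does not divide its denominator -/
theorem gwl_rat_mem_iff {q : ℕ} (hq : q.Prime) (A : ValuationSubring (AlgebraicClosure ℚ))
    (hA : A.LiesOverPrime q) (x : ℚ) :
    algebraMap ℚ (AlgebraicClosure ℚ) x ∈ A ↔ ¬ (q : ℤ) ∣ (x.den : ℤ) := by
  constructor
  · exact Fermat.Agent.S13.Minkowski.not_dvd_den_of_mem hq A hA x
  · intro h
    have hv : A.valuation (((x.den : ℤ) : ℤ) : AlgebraicClosure ℚ) = 1 :=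
      (Fermat.Agent.S05.valuation_intCast_eq_one_iff A hq hA _).mpr h
    have hnum : A.valuation ((x.num : ℤ) : AlgebraicClosure ℚ) ≤ 1 :=
      (A.valuation_le_one_iff _).mpr (intCast_mem A x.num)
    rw [← A.valuation_le_one_iff, eq_ratCast, Rat.cast_def, map_div₀]
    rw [Int.cast_natCast] at hv
    rw [hv, div_one]
    exact hnum

/-- **`G_ℚ` is transitive on the places of `ℚ̄` over a prime.** -/
theorem gwl_exists_smul_eq {q : ℕ} (hq : q.Prime) (A A' : ValuationSubring (AlgebraicClosure ℚ))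
    (hA : A.LiesOverPrime q) (hA' : A'.LiesOverPrime q) : ∃ g : GQ, g • A = A' := by
  obtain ⟨ρ, -, h⟩ := Fermat.Agent.S14.exists_fixing_smul_eq ⊥ A A' (by
    intro x hx
    obtain ⟨r, rfl⟩ := IntermediateField.mem_bot.1 hx
    rw [gwl_rat_mem_iff hq A hA, gwl_rat_mem_iff hq A' hA'])
  exact ⟨ρ, h⟩

/-- every element of the decomposition group of a place `A` over `q` is conjugate to the image of
an element of `G_{ℚ_q}` -/
theorem gwl_exists_conj (q : ℕ) [Fact q.Prime] (A : ValuationSubring (AlgebraicClosure ℚ))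
    (hA : A.LiesOverPrime q) (τ : GQ) (hτ : τ ∈ A.decompositionSubgroup ℚ) :
    ∃ (g : GQ) (x : GQq q), τ = g * localGaloisToGlobal q x * g⁻¹ := by
  have hq : q.Prime := Fact.out
  obtain ⟨g, hg⟩ := gwl_exists_smul_eq hq (padicPlace q) A (lfrobex_liesOverPrime q) hA
  have hu : g⁻¹ * τ * g ∈ (padicPlace q).decompositionSubgroup ℚ := by
    rw [MulAction.mem_stabilizer_iff] at hτ ⊢
    rw [mul_smul, mul_smul, hg, hτ, ← hg, inv_smul_smul]
  obtain ⟨x, hx⟩ := stmtDecFull q _ hu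
  refine ⟨g, x, ?_⟩
  rw [hx]
  group

/-- the cocycle identity under conjugation -/
theorem gwl_coc_conj {k : Type} [CommRing k] (B : Rep.{0} k GQ) (c : cocycles₁ B) (g u : GQ)
    (m : B.V) (hu : c u = B.ρ u m - m) :
    c (g * u * g⁻¹) = B.ρ (g * u * g⁻¹) (B.ρ g m - c g) - (B.ρ g m - c g) := by
  have hmul : ∀ a b : GQ, c (a * b) = B.ρ a (c b) + c a := (mem_cocycles₁_iff c).1 c.2
  have hinv : B.ρ g (c g⁻¹) = - c g := cocycles₁_map_inv c g
  have h1 : c (g * u * g⁻¹) = B.ρ (g * u) (c g⁻¹) + (B.ρ g (c u) + c g) := by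
    rw [hmul (g * u) g⁻¹, hmul g u]
  have h2 : B.ρ (g * u * g⁻¹) (c g) = - B.ρ (g * u) (c g⁻¹) := by
    have e : B.ρ (g * u * g⁻¹) (c g) = B.ρ (g * u) (B.ρ g⁻¹ (c g)) := by
      rw [map_mul (B.ρ) (g * u) g⁻¹]; rfl
    have e2 : B.ρ g⁻¹ (c g) = - c g⁻¹ := by
      have := cocycles₁_map_inv c g⁻¹
      rwa [inv_inv] at this
    rw [e, e2, map_neg]
  have h3 : B.ρ (g * u * g⁻¹) (B.ρ g m) = B.ρ g (B.ρ u m) := by
    have e : B.ρ (g * u * g⁻¹) (B.ρ g m) = B.ρ (g * u * g⁻¹ * g) m := by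
      rw [map_mul (B.ρ) (g * u * g⁻¹) g]; rfl
    rw [e, inv_mul_cancel_right, map_mul (B.ρ) g u]; rfl
  rw [h1, hu, map_sub, map_sub, h2, h3]
  abel

/-- **W4**. -/
theorem stmtWLoc : StmtWLoc := by
  intro k _ p _ _ ρbar q _ c hloc A hA τ hτ
  obtain ⟨m, hm⟩ := hloc
  obtain ⟨g, x, hgx⟩ := gwl_exists_conj q A hA τ hτ.mem_decompositionSubgroup
  refine ⟨(adTw p ρbar).ρ g m - c g, ?_⟩
  have h := gwl_coc_conj (adTw p ρbar) c g (localGaloisToGlobal q x) m (hm x)
  rw [← hgx] at h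
  exact h

end Fermat.Agent.TW.G.Wire
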